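/-
S36, modular part: the two `BP.Half` fields of the model, from helper156's `Setup`
(sub-architect of this layer: helper154).  Node HI-1.   Owner of the proofs: helper294.
The degrees of the two degeneracy maps over an abstract subfield `K` of `ℚ̄`.
-/
import Fermat.Agent.S36.Mod.Setup
import Fermat.Agent.S36.Norm.Degree
import Fermat.Agent.S36.Norm.DegBeta
import Fermat.Agent.BAD.Bridge.Span
import Fermat.Agent.BAD.Bridge.NormBC

set_option autoImplicit false

noncomputable section

namespace Fermat.Agent.S36.Mod

open ModularCurve Fermat.Agent.S24 Fermat.Agent.S18 Fermat.Agent.S18.Descent Fermat.Agent.S36.Norm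

namespace Degree

open Fermat.Agent.BAD.Bridge Fermat.Agent.GAL

/-- abstract core (Mathlib only): a base change which preserves linear independence and spanning
preserves the degree. -/
theorem finrank_eq_of_linearIndependent_of_span {F₁ E₁ F₂ E₂ : Type*} [Field F₁] [Field E₁]
    [Field F₂] [Field E₂] [Algebra F₁ E₁] [Algebra F₂ E₂] (Φ : F₁ →+* F₂) (Ψ : E₁ →+* E₂)
    (hcomm : ∀ x, Ψ (algebraMap F₁ E₁ x) = algebraMap F₂ E₂ (Φ x))
    (hind : ∀ (m : ℕ) (b : Fin m → E₁), LinearIndependent F₁ b →
      LinearIndependent F₂ (fun i => Ψ (b i)))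
    (hspan : Submodule.span F₂ (Set.range Ψ : Set E₂) = ⊤) [FiniteDimensional F₂ E₂] :
    Module.finrank F₁ E₁ = Module.finrank F₂ E₂ := by
  classical
  have : FiniteDimensional F₁ E₁ := NormAbs_finite (F₁ := F₁) (F₂ := F₂) Ψ hind
  set b := Module.finBasis F₁ E₁ with hb
  have hΨsmul : ∀ (c : F₁) (x : E₁), Ψ (c • x) = Φ c • Ψ x := by
    intro c x
    rw [Algebra.smul_def, map_mul, hcomm, Algebra.smul_def]
  have hΨsum : ∀ x : E₁, Ψ x = ∑ i, Φ (b.repr x i) • Ψ (b i) := by
    intro x
    conv_lhs => rw [← b.sum_repr x]
    rw [map_sum]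
    exact Finset.sum_congr rfl fun i _ => hΨsmul _ _
  have hli : LinearIndependent F₂ (fun i => Ψ (b i)) := hind _ _ b.linearIndependent
  have hsp : ⊤ ≤ Submodule.span F₂ (Set.range fun i => Ψ (b i)) := by
    rw [← hspan, Submodule.span_le]
    rintro _ ⟨x, rfl⟩
    rw [hΨsum x]
    exact Submodule.sum_mem _ fun i _ =>
      Submodule.smul_mem _ _ (Submodule.subset_span ⟨i, rfl⟩)
  rw [Module.finrank_eq_card_basis (Module.Basis.mk hli hsp), Fintype.card_fin]

/-- The general statement: two embeddings given on series by ring homs `θ`, `θ'` which commute with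
`coeffMap` and with the functionals `coeffLin lam` have the same degree. -/
theorem dg_general {L L' : Type*} [Field L] [Field L'] [Algebra ℚ L] [Algebra ℚ L']
    [Algebra L L'] [Algebra.IsAlgebraic L L']
    (F₀ F₁ : IntermediateField ℚ (LaurentSeries ℚ))
    (θ : LaurentSeries L →+* LaurentSeries L) (θ' : LaurentSeries L' →+* LaurentSeries L')
    (hθmap : ∀ x, coeffMap (algebraMap L L') (θ x) = θ' (coeffMap (algebraMap L L') x))
    (hθlin : ∀ (lam : L' →ₗ[L] L) (x : LaurentSeries L'),
      coeffLin lam (θ' x) = θ (coeffLin lam x))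
    (hθ'c : ∀ c : L', θ' (algebraMap L' (LaurentSeries L') c) = algebraMap L' (LaurentSeries L') c)
    (ι : laurentBaseChange L F₀ →+* laurentBaseChange L F₁)
    (ι' : laurentBaseChange L' F₀ →+* laurentBaseChange L' F₁)
    (hι : ∀ x, (ι x : LaurentSeries L) = θ (x : LaurentSeries L))
    (hι' : ∀ x, (ι' x : LaurentSeries L') = θ' (x : LaurentSeries L'))
    (hfin : letI := ι'.toAlgebra
      Module.Finite (laurentBaseChange L' F₀) (laurentBaseChange L' F₁)) :
    dg ι = dg ι' := by
  let _ := ι.toAlgebra
  let _ := ι'.toAlgebra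
  have : FiniteDimensional (laurentBaseChange L' F₀) (laurentBaseChange L' F₁) := hfin
  refine finrank_eq_of_linearIndependent_of_span (baseChangeMap F₀ (algebraMap L L'))
    (baseChangeMap F₁ (algebraMap L L')) ?_ ?_ ?_
  · intro x
    apply Subtype.ext
    show coeffMap (algebraMap L L') ((ι x : laurentBaseChange L F₁) : LaurentSeries L) =
      ((ι' (baseChangeMap F₀ (algebraMap L L') x) : laurentBaseChange L' F₁) : LaurentSeries L')
    rw [hι, hι', hθmap]
    rfl
  · intro m b hb
    rw [Fintype.linearIndependent_iff] at hb ⊢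
    intro f hf i
    have hser : ∑ i, θ' ((f i : laurentBaseChange L' F₀) : LaurentSeries L') *
        coeffMap (algebraMap L L') ((b i : laurentBaseChange L F₁) : LaurentSeries L) = 0 := by
      have h1 := congrArg (fun z : laurentBaseChange L' F₁ => (z : LaurentSeries L')) hf
      simp only [Algebra.smul_def] at h1
      have h2 : ((∑ i, algebraMap (laurentBaseChange L' F₀) (laurentBaseChange L' F₁) (f i) *
          baseChangeMap F₁ (algebraMap L L') (b i) : laurentBaseChange L' F₁) : LaurentSeries L')
          = ∑ i, θ' ((f i : laurentBaseChange L' F₀) : LaurentSeries L') *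
        coeffMap (algebraMap L L') ((b i : laurentBaseChange L F₁) : LaurentSeries L) := by
        rw [AddSubmonoidClass.coe_finsetSum]
        refine Finset.sum_congr rfl fun i _ => ?_
        rw [MulMemClass.coe_mul, coe_baseChangeMap]
        congr 1
        exact hι' (f i)
      rw [← h2]
      exact h1
    have key : ∀ lam : L' →ₗ[L] L,
        coeffLin lam ((f i : laurentBaseChange L' F₀) : LaurentSeries L') = 0 := by
      intro lam
      have h3 := congrArg (coeffLin lam) hser
      rw [coeffLin_sum, coeffLin_zero] at h3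
      let g : Fin m → laurentBaseChange L F₀ := fun i =>
        ⟨coeffLin lam ((f i : laurentBaseChange L' F₀) : LaurentSeries L'),
          coeffLin_mem_laurentBaseChange F₀ lam (f i).2⟩
      have h4 : ∑ i, g i • b i = 0 := by
        apply Subtype.ext
        simp only [Algebra.smul_def]
        rw [AddSubmonoidClass.coe_finsetSum, ZeroMemClass.coe_zero, ← h3]
        refine Finset.sum_congr rfl fun i _ => ?_
        rw [MulMemClass.coe_mul, mul_comm (θ' _), coeffLin_mul, hθlin, mul_comm]
        congr 1
        exact hι (g i)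
      have h5 := hb g h4 i
      exact congrArg (fun z : laurentBaseChange L F₀ => (z : LaurentSeries L)) h5
    exact Subtype.ext (eq_zero_of_forall_coeffLin_eq_zero key)
  · rw [eq_top_iff]
    rintro ⟨x, hx⟩ -
    have h := mem_span_of_mem_laurentBaseChange (L := L) F₁ hx
    have gen : ∀ z : LaurentSeries L', z ∈ Submodule.span L'
        ((coeffMap (algebraMap L L')) '' (laurentBaseChange L F₁ : Set (LaurentSeries L))) →
        ∃ hz : z ∈ laurentBaseChange L' F₁, (⟨z, hz⟩ : laurentBaseChange L' F₁) ∈
          Submodule.span (laurentBaseChange L' F₀)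
            (Set.range (baseChangeMap F₁ (algebraMap L L')) : Set (laurentBaseChange L' F₁)) := by
      intro z hz
      induction hz using Submodule.span_induction with
      | mem z hz =>
          obtain ⟨w, hw, rfl⟩ := hz
          exact ⟨coeffMap_mem_laurentBaseChange' _ hw, Submodule.subset_span ⟨⟨w, hw⟩, rfl⟩⟩
      | zero => exact ⟨zero_mem _, zero_mem _⟩
      | add a b _ _ ha hb =>
          obtain ⟨ha1, ha2⟩ := ha
          obtain ⟨hb1, hb2⟩ := hb
          exact ⟨add_mem ha1 hb1, add_mem ha2 hb2⟩
      | smul c a _ ha =>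
          obtain ⟨ha1, ha2⟩ := ha
          have hca : c • a = algebraMap L' (LaurentSeries L') c * a := span_smul_eq c a
          have hmem : c • a ∈ laurentBaseChange L' F₁ := by
            rw [hca]
            exact mul_mem ((laurentBaseChange L' F₁).algebraMap_mem c) ha1
          refine ⟨hmem, ?_⟩
          have h6 : (⟨c • a, hmem⟩ : laurentBaseChange L' F₁) =
              (algebraMap L' (laurentBaseChange L' F₀) c) • (⟨a, ha1⟩ : laurentBaseChange L' F₁) := by
            apply Subtype.ext
            rw [Algebra.smul_def, MulMemClass.coe_mul]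
            show c • a = ((ι' (algebraMap L' (laurentBaseChange L' F₀) c) :
              laurentBaseChange L' F₁) : LaurentSeries L') * a
            rw [hι', hca]
            congr 1
            exact (hθ'c c).symm
          rw [h6]
          exact Submodule.smul_mem _ _ ha2
    exact (gen x h).2

theorem isAlgebraic_Kbar (K : Type*) [Field K] [Algebra ℚ K] [Algebra K Kbar] :
    Algebra.IsAlgebraic K Kbar :=
  have : Algebra.IsAlgebraic ℚ Kbar := AlgebraicClosure.isAlgebraic ℚ
  Algebra.IsAlgebraic.tower_top (K := ℚ) K

end Degree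

section General

variable (K : Type*) [Field K] [Algebra ℚ K] [Algebra K Kbar] (N q : ℕ) [NeZero N] [NeZero q]

/-- Extension of the constants does not change the degree: a family of `FK K (N q)` which is
linearly independent over `α (FK K N)` stays so over `α (FN N)`, and `FN (N q)` is spanned by
`ℚ̄` and `FK K (N q)` (`BAD/Bridge/Span.lean`; compare the proof of `NormBC_general` in
`BAD/Bridge/NormBC.lean`, which checks exactly these two facts). -/
theorem dg_alphaK :
    dg (heckeAlphaBar K N q).toRingHom = dg (heckeAlphaBar Kbar N q).toRingHom :=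
  have := Degree.isAlgebraic_Kbar K
  Degree.dg_general (L := K) (L' := Kbar) (modularFunctionFieldFull N)
    (modularFunctionFieldFull (N * q)) (RingHom.id _) (RingHom.id _) (fun _ => rfl)
    (fun _ _ => rfl) (fun _ => rfl) (heckeAlphaBar K N q).toRingHom
    (heckeAlphaBar Kbar N q).toRingHom (fun x => coe_heckeAlphaBar N q x)
    (fun x => coe_heckeAlphaBar N q x) (S37.HeckeInputs.alpha_finite N q)

theorem dg_betaK :
    dg (heckeBetaBar K N q).toRingHom = dg (heckeBetaBar Kbar N q).toRingHom :=
  have := Degree.isAlgebraic_Kbar K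
  Degree.dg_general (L := K) (L' := Kbar) (modularFunctionFieldFull N)
    (modularFunctionFieldFull (N * q)) (qExpand K q) (qExpand Kbar q)
    (fun x => BAD.Bridge.NormBC_coeffMap_qExpand _ q x)
    (fun lam x => BAD.Bridge.NormBC_coeffLin_qExpand lam q x)
    (fun c => by rw [algebraMap_laurentSeries_eq_single, qExpand_single, mul_zero])
    (heckeBetaBar K N q).toRingHom
    (heckeBetaBar Kbar N q).toRingHom (fun x => coe_heckeBetaBar N q x)
    (fun x => coe_heckeBetaBar N q x) (S37.HeckeInputs.beta_finite N q)

end General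

namespace Setup

variable {K K' : Type*} [Field K] [Field K'] [Algebra ℚ K] [Algebra ℚ K'] [Algebra K Kbar]
  [Algebra K' Kbar] (S : Setup K K')

/-- `dg_alphaK`, `heckeAlphaBar_eq_inc`, `dg_inc_of_dvd`. -/
theorem dg_al1 : dg S.al1.toRingHom = S.q := by
  rw [al1, dg_alphaK, heckeAlphaBar_eq_inc]
  exact dg_inc_of_dvd S.hq (dvd_mul_left S.q S.N0)

/-- `dg_betaK`, `dg_beta_of_dvd`. -/
theorem dg_be1 : dg S.be1.toRingHom = S.q := by
  rw [be1, dg_betaK]
  exact dg_beta_of_dvd S.hq (dvd_mul_left S.q S.N0)

end Setup

end Fermat.Agent.S36.Mod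

end
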