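/-
S36, modular part: the two `BP.Half` fields of the model, from helper156's `Setup`
(sub-architect of this layer: helper154).  Node HI-2.
STUB FILE: the statements are frozen interfaces; the task owner replaces every `sorry`
(extra auxiliary lemmas are welcome, with fresh names).
Atkin-Lehner intertwines the two degeneracy maps; the six composed embeddings.
-/
import Fermat.Agent.S36.Mod.Setup
import Fermat.Agent.S36.Mod.GaussEmb.Funct

set_option autoImplicit false

noncomputable section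

namespace Fermat.Agent.S36.Mod

open ModularCurve Fermat.Agent.S24 Fermat.Agent.S18 Fermat.Agent.S18.Vert
  Fermat.Agent.S18.Descent

namespace Setup

variable {K K' : Type*} [Field K] [Field K'] [Algebra ℚ K] [Algebra ℚ K'] [Algebra K Kbar]
  [Algebra K' Kbar] (S : Setup K K')

/-- On the generators `J_{d e}`, `d ∣ N0`, `e ∈ {1, q}` (`algHom_ext_JK`, `EmbK.exists_factor`,
`al_JK`, `be_JK`, `wAL_JK`, `JK_congr`): both sides are `J_{d q q / e}`. -/
theorem w2_al1 (f : S.F1) : S.w2 (S.al1 f) = S.be1 (S.w1 f) := by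
  have key : S.w2.comp S.al1 = S.be1.comp S.w1 := by
    apply algHom_ext_JK
    intro d _ hd
    obtain ⟨d0, e, e', rfl, hd0, he, he0, he'0⟩ := EmbK.exists_factor S.hq.ne_zero hd
    have : NeZero d0 :=
      ⟨fun h => (NeZero.ne S.N0) (by rw [h] at hd0; exact Nat.eq_zero_of_zero_dvd hd0)⟩
    have : NeZero e := ⟨he0⟩
    have : NeZero e' := ⟨he'0⟩
    have h1 : d0 * e' ∣ S.N0 * S.q := Nat.mul_dvd_mul hd0 ⟨e, by rw [← he, mul_comm]⟩
    have h2 : d0 * (e' * S.q) ∣ S.N0 * S.q * S.q := by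
      rw [← mul_assoc]; exact Nat.mul_dvd_mul_right h1 _
    have h3 : S.q * (d0 * e') ∣ S.N0 * S.q * S.q := by
      rw [mul_comm]; exact Nat.mul_dvd_mul_right h1 _
    rw [AlgHom.comp_apply, AlgHom.comp_apply, al1, al_JK, w2,
      wAL_JK K _ S.N0 (S.q * S.q) _ _ d0 e (e' * S.q) hd0 (by rw [← mul_assoc, he]) _ h2, w1,
      wAL_JK K _ S.N0 S.q _ _ d0 e e' hd0 he hd h1, be1, be_JK _ _ _ _ h3]
    exact JK_congr K _ (by ring) _ _
  exact congrArg (fun φ : S.F1 →ₐ[K] S.F2 => φ f) key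

/-- Both sides are `J_{d q / e}` on `J_{d e}`. -/
theorem w2_be1 (f : S.F1) : S.w2 (S.be1 f) = S.al1 (S.w1 f) := by
  have key : S.w2.comp S.be1 = S.al1.comp S.w1 := by
    apply algHom_ext_JK
    intro d _ hd
    obtain ⟨d0, e, e', rfl, hd0, he, he0, he'0⟩ := EmbK.exists_factor S.hq.ne_zero hd
    have : NeZero d0 :=
      ⟨fun h => (NeZero.ne S.N0) (by rw [h] at hd0; exact Nat.eq_zero_of_zero_dvd hd0)⟩
    have : NeZero e := ⟨he0⟩
    have : NeZero e' := ⟨he'0⟩
    have h1 : d0 * e' ∣ S.N0 * S.q := Nat.mul_dvd_mul hd0 ⟨e, by rw [← he, mul_comm]⟩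
    have h2 : d0 * (e * S.q) ∣ S.N0 * S.q * S.q := by
      rw [← mul_assoc]; exact Nat.mul_dvd_mul_right hd _
    have h3 : S.q * (d0 * e) ∣ S.N0 * S.q * S.q := by
      rw [mul_comm]; exact Nat.mul_dvd_mul_right hd _
    have h4 : d0 * e' ∣ S.N0 * S.q * S.q := h1.mul_right _
    rw [AlgHom.comp_apply, AlgHom.comp_apply, be1, be_JK _ _ _ _ h3,
      JK_congr K _ (show S.q * (d0 * e) = d0 * (e * S.q) by ring) h3 h2, w2,
      wAL_JK K _ S.N0 (S.q * S.q) _ _ d0 (e * S.q) e' hd0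
        (by rw [mul_right_comm, he]) h2 h4, w1,
      wAL_JK K _ S.N0 S.q _ _ d0 e e' hd0 he hd h1, al1, al_JK]
  exact congrArg (fun φ : S.F1 →ₐ[K] S.F2 => φ f) key

theorem e20_al1 (f : S.F1) : S.e20.toHom (S.al1 f) = S.e1oo.toHom f := by
  rw [e20, e1oo, stdEmb_toHom_apply, stdEmb_toHom_apply, al1, coe_heckeAlphaBar]

theorem e20_be1 (f : S.F1) : S.e20.toHom (S.be1 f) = qExpand K S.q (S.e1oo.toHom f) := by
  rw [e20, e1oo, stdEmb_toHom_apply, stdEmb_toHom_apply, be1, coe_heckeBetaBar]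

theorem e02_al1 (f : S.F1) : S.e02.toHom (S.al1 f) = qExpand K S.q (S.e10.toHom f) := by
  show S.e20.toHom (S.w2 (S.al1 f)) = qExpand K S.q (S.e1oo.toHom (S.w1 f))
  rw [w2_al1, e20_be1]

theorem e02_be1 (f : S.F1) : S.e02.toHom (S.be1 f) = S.e10.toHom f := by
  show S.e20.toHom (S.w2 (S.be1 f)) = S.e1oo.toHom (S.w1 f)
  rw [w2_be1, e20_al1]

/-- extension of the constants on the generators -/
theorem toK'_JK (N d : ℕ) [NeZero d] (hd : d ∣ N) : S.toK' N (JK K N d hd) = JK K' N d hd := by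
  apply Subtype.ext
  exact coeffMap_Js S.ι d

/-- a series in `t ^ n` is fixed by the twist by an `n`-th root of unity -/
theorem twist_qExpand_of_pow_eq_one {L : Type*} [Field L] (n : ℕ) [NeZero n] (ζ : Lˣ)
    (hζ : ζ ^ n = 1) (s : LaurentSeries L) :
    S24.B.twist ζ (qExpand L n s) = qExpand L n s := by
  ext k
  rw [S24.B.twist_coeff]
  by_cases hk : (n : ℤ) ∣ k
  · obtain ⟨m, rfl⟩ := hk
    rw [zpow_mul, zpow_natCast, hζ, one_zpow, Units.val_one, one_mul]
  · rw [qExpand_coeff_of_not_dvd n _ hk, mul_zero]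

/-- `ringHom_ext_JK`; `mid_JK`, `coeffMap_Js`. -/
theorem e11_al1 (f : S.F1) : S.e11.toHom (S.al1 f) = coeffMap S.ι (S.e1oo.toHom f) := by
  have key : S.e11.toHom.comp S.al1.toRingHom = (coeffMap S.ι).comp S.e1oo.toHom := by
    apply ringHom_ext_JK
    · intro c
      show S.midK' (S.toK' _ (S.al1 (algebraMap K S.F1 c))) =
        coeffMap S.ι (algebraMap K (LaurentSeries K) c)
      rw [AlgHom.commutes, toK', baseChangeMap_algebraMap, AlgHom.commutes, coeffMap_algebraMap']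
    · intro d _ hd
      show S.midK' (S.toK' _ (S.al1 (JK K _ d hd))) = coeffMap S.ι (Js K d)
      rw [al1, al_JK, toK'_JK, midK', mid_JK K' S.N0 S.q S.hq S.hqN S.ζ S.hζ d hd, coeffMap_Js]
  exact congrArg (fun φ : S.F1 →+* LaurentSeries K' => φ f) key

/-- On `J_d`, `d ∣ N0`: both sides are `j(t^{d q})` (a series in `t^q` is fixed by the twist, as
`ζ ^ q = 1`); on `J_{d q}`: both sides are `twist ζ (j(t^d))` (`mid_JK'`). -/
theorem e11_be1 (f : S.F1) :
    S.e11.toHom (S.be1 f) = S24.B.twist S.ζ (coeffMap S.ι (S.e10.toHom f)) := by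
  have key : S.e11.toHom.comp S.be1.toRingHom =
      ((S24.B.twist S.ζ).comp (coeffMap S.ι)).comp S.e10.toHom := by
    apply ringHom_ext_JK
    · intro c
      show S.midK' (S.toK' _ (S.be1 (algebraMap K S.F1 c))) =
        S24.B.twist S.ζ (coeffMap S.ι ((S.w1 (algebraMap K S.F1 c) : S.F1) : LaurentSeries K))
      rw [AlgHom.commutes, toK', baseChangeMap_algebraMap, AlgHom.commutes, AlgHom.commutes]
      show _ = S24.B.twist S.ζ (coeffMap S.ι (algebraMap K (LaurentSeries K) c))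
      rw [coeffMap_algebraMap', algebraMap_laurentSeries_eq_single, ← HahnSeries.C_apply,
        S24.B.twist_C]
    · intro d _ hd
      show S.midK' (S.toK' _ (S.be1 (JK K _ d hd))) =
        S24.B.twist S.ζ (coeffMap S.ι ((S.w1 (JK K _ d hd) : S.F1) : LaurentSeries K))
      obtain ⟨d0, e, e', rfl, hd0, he, he0, he'0⟩ := EmbK.exists_factor S.hq.ne_zero hd
      have hN00 : S.N0 ≠ 0 := NeZero.ne S.N0
      have : NeZero d0 := ⟨fun h => hN00 (by rw [h] at hd0; exact Nat.eq_zero_of_zero_dvd hd0)⟩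
      have : NeZero e := ⟨he0⟩
      have : NeZero e' := ⟨he'0⟩
      have h2 : d0 * e' ∣ S.N0 * S.q := Nat.mul_dvd_mul hd0 ⟨e, by rw [← he, mul_comm]⟩
      have hb : S.q * (d0 * e) ∣ S.N0 * S.q * S.q := by
        rw [mul_comm S.q]
        exact Nat.mul_dvd_mul_right hd S.q
      rw [w1, wAL_JK K (S.N0 * S.q) S.N0 S.q rfl S.coprime d0 e e' hd0 he hd h2, coe_JK,
        coeffMap_Js, be1, be_JK (S.N0 * S.q) S.q (d0 * e) hd hb, toK'_JK, midK']
      rcases (Nat.dvd_prime S.hq).1 ⟨e', he.symm⟩ with h1 | h1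
      · -- `e = 1`, `e' = q`
        subst h1
        have he' : e' = S.q := by rw [← he, one_mul]
        have hb' : S.q * (d0 * 1) ∣ S.N0 * S.q := by
          rw [mul_one, mul_comm]
          exact Nat.mul_dvd_mul_right hd0 S.q
        rw [mid_JK K' S.N0 S.q S.hq S.hqN S.ζ S.hζ _ hb' hb,
          Js_congr K' (show d0 * e' = S.q * d0 by rw [he', mul_comm]), ← qExpand_Js S.q d0,
          twist_qExpand_of_pow_eq_one S.q S.ζ S.hζ.pow_eq_one, qExpand_Js]
        exact Js_congr K' (by rw [mul_one])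
      · -- `e = q`, `e' = 1`
        have he' : e' = 1 := by
          have h3 : S.q * e' = S.q * 1 := by rw [mul_one, ← h1, he, h1]
          exact Nat.eq_of_mul_eq_mul_left S.hq.pos h3
        have hb' : d0 * S.q * S.q ∣ S.N0 * S.q * S.q :=
          Nat.mul_dvd_mul_right (Nat.mul_dvd_mul_right hd0 S.q) S.q
        rw [JK_congr K' (S.N0 * S.q * S.q)
            (show S.q * (d0 * e) = d0 * S.q * S.q by rw [h1]; ring) hb hb',
          mid_JK' K' S.N0 S.q S.hq S.hqN S.ζ S.hζ d0 hd0 hb',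
          Js_congr K' (show d0 * e' = d0 by rw [he', mul_one])]
  exact congrArg (fun φ : S.F1 →+* LaurentSeries K' => φ f) key

end Setup

end Fermat.Agent.S36.Mod

end
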