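/-
S36, modular part: the two `BP.Half` fields of the model, from helper156's `Setup`
(sub-architect of this layer: helper154).  Node HI-3.
The six restriction identities for the vertical valuation rings, and the residues of restricted
elements on the inseparable components.
-/
import Fermat.Agent.S36.Mod.HalfInst.Compose

set_option autoImplicit false

noncomputable section

namespace Fermat.Agent.S36.Mod

open ModularCurve Fermat.Agent.S24 Fermat.Agent.S18 Fermat.Agent.S18.Vert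
  Fermat.Agent.S18.Descent

namespace IntEmb

section Abs

variable {K : Type*} [Field K] {A : ValuationSubring K} [IsDiscreteValuationRing A]
  {F F' : Type*} [Field F] [Field F'] {R : Type*} [CommSemiring R] [Algebra R F] [Algebra R F']

theorem comap_algHom_eq (φ : IntEmb A F) (ψ : IntEmb A F') (α : F' →ₐ[R] F)
    (h : ∀ f, φ.toHom (α f) = ψ.toHom f) : φ.val.comap α.toRingHom = ψ.val := by
  have he : (φ.comp α.toRingHom).toHom = ψ.toHom := RingHom.ext h
  rw [← IntEmb.val_comp]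
  exact IntEmb.val_congr he

theorem comap_algHom_eq_dil (φ : IntEmb A F) (ψ : IntEmb A F') (α : F' →ₐ[R] F) (n : ℕ) [NeZero n]
    (h : ∀ f, φ.toHom (α f) = qExpand K n (ψ.toHom f)) : φ.val.comap α.toRingHom = ψ.val :=
  (comap_algHom_eq φ (ψ.dil n) α h).trans (IntEmb.val_dil ψ n)

theorem exists_res_algHom_eq_dil (φ : IntEmb A F) (ψ : IntEmb A F') (α : F' →ₐ[R] F) (n : ℕ)
    [NeZero n] (h : ∀ f, φ.toHom (α f) = qExpand K n (ψ.toHom f)) (f : F') (hf : α f ∈ φ.val) :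
    ∃ g : LaurentSeries (IsLocalRing.ResidueField A), φ.res ⟨α f, hf⟩ = qExpand _ n g := by
  have he : (φ.comp α.toRingHom).toHom = (ψ.dil n).toHom := RingHom.ext h
  have h1 : f ∈ (φ.comp α.toRingHom).val := hf
  have h2 : f ∈ (ψ.dil n).val := IntEmb.val_congr he ▸ h1
  have h3 : f ∈ ψ.val := IntEmb.val_dil ψ n ▸ h2
  refine ⟨ψ.res ⟨f, h3⟩, ?_⟩
  rw [← IntEmb.res_dil ψ n f h2 h3, ← IntEmb.res_congr he f h1 h2]
  rfl

variable {K' : Type*} [Field K'] {A' : ValuationSubring K'} [IsDiscreteValuationRing A']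

theorem comap_algHom_eq_bc (φ : IntEmb A' F) (ψ : IntEmb A F') (α : F' →ₐ[R] F)
    (ι : K →+* K') (hι : A'.comap ι = A)
    (h : ∀ f, φ.toHom (α f) = coeffMap ι (ψ.toHom f)) : φ.val.comap α.toRingHom = ψ.val :=
  (comap_algHom_eq φ (ψ.bc ι hι) α h).trans (IntEmb.val_bc ψ ι hι)

theorem comap_algHom_eq_tw_bc (φ : IntEmb A' F) (ψ : IntEmb A F') (α : F' →ₐ[R] F)
    (ι : K →+* K') (hι : A'.comap ι = A) (ζ : K'ˣ) (hζ : (ζ : K') ∈ A')
    (hζ' : ((ζ⁻¹ : K'ˣ) : K') ∈ A')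
    (h : ∀ f, φ.toHom (α f) = S24.B.twist ζ (coeffMap ι (ψ.toHom f))) :
    φ.val.comap α.toRingHom = ψ.val :=
  ((comap_algHom_eq φ ((ψ.bc ι hι).tw ζ hζ hζ') α h).trans
    (IntEmb.val_tw _ ζ hζ hζ')).trans (IntEmb.val_bc ψ ι hι)

end Abs

end IntEmb

namespace Setup

variable {K K' : Type*} [Field K] [Field K'] [Algebra ℚ K] [Algebra ℚ K'] [Algebra K Kbar]
  [Algebra K' Kbar] (S : Setup K K')

omit [Algebra ℚ K] [Algebra ℚ K'] [Algebra K Kbar] [Algebra K' Kbar] in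
/-- a root of unity lies in every valuation subring. -/
theorem mem_of_pow_eq_one_aux {E : Type*} [Field E] (V : ValuationSubring E) {x : E} {n : ℕ}
    (hn : n ≠ 0) (h : x ^ n = 1) : x ∈ V := by
  rcases V.mem_or_inv_mem x with hx | hx
  · exact hx
  · obtain ⟨m, rfl⟩ := Nat.exists_eq_succ_of_ne_zero hn
    have hx0 : x ≠ 0 := by
      rintro rfl
      rw [zero_pow hn] at h
      exact zero_ne_one h
    have h1 : x = x⁻¹ ^ m := by
      rw [inv_pow]
      exact eq_inv_of_mul_eq_one_left (by rw [← pow_succ']; exact h)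
    rw [h1]
    exact pow_mem hx m

omit [Algebra ℚ K] [Algebra ℚ K'] [Algebra K Kbar] [Algebra K' Kbar] in
/-- `ζ` is a unit of `B'` (it is integral over `ℤ`, and `B'` is integrally closed). -/
theorem zeta_mem : (S.ζ : K') ∈ S.B' := by
  refine mem_of_pow_eq_one_aux S.B' S.hq.ne_zero ?_
  rw [← Units.val_pow_eq_pow_val, S.hζ.pow_eq_one, Units.val_one]

omit [Algebra ℚ K] [Algebra ℚ K'] [Algebra K Kbar] [Algebra K' Kbar] in
theorem zeta_inv_mem : ((S.ζ⁻¹ : K'ˣ) : K') ∈ S.B' := by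
  refine mem_of_pow_eq_one_aux S.B' S.hq.ne_zero ?_
  rw [← Units.val_pow_eq_pow_val, inv_pow, S.hζ.pow_eq_one, inv_one, Units.val_one]

/-! `IntEmb.val_comp`, `IntEmb.val_congr`, `IntEmb.val_dil`, `IntEmb.val_bc`, `IntEmb.val_tw` and
the identities of `Compose.lean`. -/

theorem V20_comap_al1 : S.V20.comap S.al1.toRingHom = S.V1oo :=
  IntEmb.comap_algHom_eq S.e20 S.e1oo S.al1 S.e20_al1

theorem V11_comap_al1 : S.V11.comap S.al1.toRingHom = S.V1oo :=
  IntEmb.comap_algHom_eq_bc S.e11 S.e1oo S.al1 S.ι S.comap_ι S.e11_al1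

theorem V02_comap_al1 : S.V02.comap S.al1.toRingHom = S.V10 :=
  IntEmb.comap_algHom_eq_dil S.e02 S.e10 S.al1 S.q S.e02_al1

theorem V02_comap_be1 : S.V02.comap S.be1.toRingHom = S.V10 :=
  IntEmb.comap_algHom_eq S.e02 S.e10 S.be1 S.e02_be1

theorem V11_comap_be1 : S.V11.comap S.be1.toRingHom = S.V10 :=
  IntEmb.comap_algHom_eq_tw_bc S.e11 S.e10 S.be1 S.ι S.comap_ι S.ζ S.zeta_mem S.zeta_inv_mem
    S.e11_be1

theorem V20_comap_be1 : S.V20.comap S.be1.toRingHom = S.V1oo :=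
  IntEmb.comap_algHom_eq_dil S.e20 S.e1oo S.be1 S.q S.e20_be1

/-- `IntEmb.res_comp`, `res_congr`, `res_dil`. -/
theorem res_e02_al1 (f : S.F1) (h : S.al1 f ∈ S.e02.val) :
    ∃ g : LaurentSeries (IsLocalRing.ResidueField S.B),
      S.e02.res ⟨S.al1 f, h⟩ = qExpand _ S.q g :=
  IntEmb.exists_res_algHom_eq_dil S.e02 S.e10 S.al1 S.q S.e02_al1 f h

theorem res_e20_be1 (f : S.F1) (h : S.be1 f ∈ S.e20.val) :
    ∃ g : LaurentSeries (IsLocalRing.ResidueField S.B),
      S.e20.res ⟨S.be1 f, h⟩ = qExpand _ S.q g :=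
  IntEmb.exists_res_algHom_eq_dil S.e20 S.e1oo S.be1 S.q S.e20_be1 f h

end Setup

end Fermat.Agent.S36.Mod

end
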