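/-
S36, modular part: the two `BP.Half` fields of the model, from helper156's `Setup`
(sub-architect of this layer: helper154).  Node HI-4 (proved by helper290).
Cyclotomic input: `ζ - 1` is a nonunit of `B'` and `q = unit * (ζ - 1)^(q-1)`.
-/
import Mathlib

set_option autoImplicit false

namespace Fermat.Agent.S36.Mod

variable {K' : Type*} [Field K'] (B' : ValuationSubring K') {q : ℕ}

/-- `ζ ^ q = 1`, so `ζ` and `ζ⁻¹ = ζ ^ (q - 1)` are integral over `ℤ`. -/
theorem cyc_mem {ζ : K'} (hζ : IsPrimitiveRoot ζ q) (hq : q.Prime) : ζ ∈ B' := by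
  rcases B'.mem_or_inv_mem ζ with h | h
  · exact h
  · have h1 : ζ = ζ⁻¹ ^ (q - 1) := by
      have h0 : ζ ≠ 0 := hζ.ne_zero hq.ne_zero
      have h2 : ζ ^ (q - 1) * ζ = 1 := by
        rw [← pow_succ, Nat.sub_add_cancel hq.one_le, hζ.pow_eq_one]
      rw [inv_pow]
      exact eq_inv_of_mul_eq_one_right h2
    rw [h1]
    exact pow_mem h _

private theorem cyc_nonunits_add {x y : K'} (hx : x ∈ B'.nonunits) (hy : y ∈ B'.nonunits) :
    x + y ∈ B'.nonunits := by
  rw [ValuationSubring.mem_nonunits_iff] at *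
  exact Valuation.map_add_lt _ hx hy

private theorem cyc_nonunits_mul {x y : K'} (hx : x ∈ B'.nonunits) (hy : y ∈ B') :
    x * y ∈ B'.nonunits := by
  rw [ValuationSubring.mem_nonunits_iff] at *
  rw [← ValuationSubring.valuation_le_one_iff] at hy
  rw [map_mul]
  exact (mul_le_of_le_one_right' hy).trans_lt hx

private theorem cyc_nonunits_neg {x : K'} (hx : x ∈ B'.nonunits) : -x ∈ B'.nonunits := by
  rw [ValuationSubring.mem_nonunits_iff] at *
  rwa [Valuation.map_neg]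

private theorem cyc_nonunits_sub {x y : K'} (hx : x ∈ B'.nonunits) (hy : y ∈ B'.nonunits) :
    x - y ∈ B'.nonunits := by
  rw [sub_eq_add_neg]
  exact cyc_nonunits_add B' hx (cyc_nonunits_neg B' hy)

private theorem cyc_zero_nonunit : (0 : K') ∈ B'.nonunits := by
  rw [ValuationSubring.mem_nonunits_iff, map_zero]
  exact zero_lt_one

/-- In the residue field (characteristic `q`): `(ζ - 1) ^ q = ζ ^ q - 1 = 0`. -/
theorem cyc_sub_one_nonunit {ζ : K'} (hζ : IsPrimitiveRoot ζ q) (hq : q.Prime)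
    (hqB : (q : K') ∈ B'.nonunits) : ζ - 1 ∈ B'.nonunits := by
  have hmem := cyc_mem B' hζ hq
  have hx : ζ - 1 ∈ B' := sub_mem hmem (one_mem _)
  obtain ⟨r, hr⟩ := exists_add_pow_prime_eq hq (⟨ζ - 1, hx⟩ : B') 1
  have hr' := congrArg (Subtype.val : B' → K') hr
  simp only [one_pow, mul_one] at hr'
  push_cast at hr'
  rw [sub_add_cancel, hζ.pow_eq_one] at hr'
  have h1 : (ζ - 1) ^ q = (q : K') * (-((ζ - 1) * (r : K'))) := by linear_combination -hr'
  have h2 : (ζ - 1) ^ q ∈ B'.nonunits := by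
    rw [h1]
    exact cyc_nonunits_mul B' hqB (neg_mem (mul_mem hx r.2))
  rw [ValuationSubring.mem_nonunits_iff] at h2 ⊢
  rw [map_pow] at h2
  by_contra hcon
  rw [not_lt] at hcon
  exact absurd h2 (not_lt.2 (one_le_pow_of_one_le' hcon q))

private theorem cyc_natCast_mem (n : ℕ) : (n : K') ∈ B' := natCast_mem _ n

private theorem cyc_exists_quot_nat {ζ : K'} (hζ : IsPrimitiveRoot ζ q) (hq : q.Prime)
    (hqB : (q : K') ∈ B'.nonunits) (n : ℕ) :
    ∃ c ∈ B', ζ ^ n - 1 = (ζ - 1) * c ∧ c - (n : K') ∈ B'.nonunits := by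
  have hmem := cyc_mem B' hζ hq
  have hnu := cyc_sub_one_nonunit B' hζ hq hqB
  induction n with
  | zero => exact ⟨0, zero_mem _, by simp, by simpa using cyc_zero_nonunit B'⟩
  | succ n ih =>
    obtain ⟨c, hc, h1, h2⟩ := ih
    refine ⟨c + ζ ^ n, add_mem hc (pow_mem hmem n), ?_, ?_⟩
    · rw [pow_succ]
      linear_combination h1
    · have h3 : c + ζ ^ n - ((n + 1 : ℕ) : K') = (c - (n : K')) + (ζ - 1) * c := by
        push_cast
        linear_combination h1
      rw [h3]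
      exact cyc_nonunits_add B' h2 (cyc_nonunits_mul B' hnu hc)

/-- `(ζ ^ n - 1) / (ζ - 1) ∈ B'` and it is `≡ n` modulo the maximal ideal, for every `n : ℤ`. -/
theorem cyc_exists_quot {ζ : K'} (hζ : IsPrimitiveRoot ζ q) (hq : q.Prime)
    (hqB : (q : K') ∈ B'.nonunits) (n : ℤ) :
    ∃ c ∈ B', ζ ^ n - 1 = (ζ - 1) * c ∧ c - (n : K') ∈ B'.nonunits := by
  have h0 : ζ ≠ 0 := hζ.ne_zero hq.ne_zero
  have hq0 : (q : ℤ) ≠ 0 := by exact_mod_cast hq.ne_zero
  have hnn : 0 ≤ n % (q : ℤ) := Int.emod_nonneg _ hq0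
  obtain ⟨r, hr⟩ := Int.eq_ofNat_of_zero_le hnn
  have hn : n = (q : ℤ) * (n / q) + r := by
    rw [← hr]
    exact (Int.mul_ediv_add_emod n q).symm
  obtain ⟨c, hc, h1, h2⟩ := cyc_exists_quot_nat B' hζ hq hqB r
  refine ⟨c, hc, ?_, ?_⟩
  · have : ζ ^ n = ζ ^ r := by
      conv_lhs => rw [hn]
      rw [zpow_add₀ h0, zpow_mul, zpow_natCast, hζ.pow_eq_one, one_zpow, one_mul, zpow_natCast]
    rw [this, h1]
  · have h3 : c - (n : K') = (c - (r : K')) - (q : K') * ((n / q : ℤ) : K') := by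
      conv_lhs => rw [hn]
      push_cast
      ring
    rw [h3]
    exact cyc_nonunits_sub B' h2 (cyc_nonunits_mul B' hqB (intCast_mem _ _))

private theorem cyc_unit_of_coprime {c : K'} {i : ℕ} (hq : q.Prime)
    (hqB : (q : K') ∈ B'.nonunits) (hi : i.Coprime q) (hc : c ∈ B')
    (hci : c - (i : K') ∈ B'.nonunits) : c⁻¹ ∈ B' := by
  rw [← ValuationSubring.valuation_le_one_iff, map_inv₀]
  have h1 : ¬ c ∈ B'.nonunits := by
    intro hcn
    have hin : (i : K') ∈ B'.nonunits := by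
      have := cyc_nonunits_sub B' hcn hci
      rwa [sub_sub_cancel] at this
    have hb : (i : ℤ) * Nat.gcdA i q + (q : ℤ) * Nat.gcdB i q = 1 := by
      have := Nat.gcd_eq_gcd_ab i q
      rw [hi.gcd_eq_one] at this
      exact_mod_cast this.symm
    have hb' : (i : K') * ((Nat.gcdA i q : ℤ) : K') + (q : K') * ((Nat.gcdB i q : ℤ) : K') = 1 := by
      exact_mod_cast congrArg (Int.cast : ℤ → K') hb
    have h2 := cyc_nonunits_add B' (cyc_nonunits_mul B' hin (intCast_mem B' (Nat.gcdA i q)))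
      (cyc_nonunits_mul B' hqB (intCast_mem B' (Nat.gcdB i q)))
    rw [hb', ValuationSubring.mem_nonunits_iff, map_one] at h2
    exact lt_irrefl _ h2
  rw [ValuationSubring.mem_nonunits_iff, not_lt] at h1
  rw [← ValuationSubring.valuation_le_one_iff] at hc
  rw [le_antisymm hc h1, inv_one]

private theorem cyc_prod_aux (a : K') (s : Finset K') (f : K' → K')
    (h : ∀ μ ∈ s, ∃ u : K', u ∈ B' ∧ u⁻¹ ∈ B' ∧ f μ = u * a) :
    ∃ ε : K', ε ∈ B' ∧ ε⁻¹ ∈ B' ∧ ∏ μ ∈ s, f μ = ε * a ^ s.card := by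
  classical
  induction s using Finset.induction_on with
  | empty => exact ⟨1, one_mem _, by simpa using one_mem B', by simp⟩
  | insert μ s hμ ih =>
    obtain ⟨ε, h1, h2, h3⟩ := ih fun ν hν => h ν (Finset.mem_insert_of_mem hν)
    obtain ⟨u, u1, u2, u3⟩ := h μ (Finset.mem_insert_self _ _)
    refine ⟨u * ε, mul_mem u1 h1, ?_, ?_⟩
    · rw [mul_inv]
      exact mul_mem u2 h2
    · rw [Finset.prod_insert hμ, Finset.card_insert_of_notMem hμ, h3, u3, pow_succ]
      ring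

/-- `q = ∏_{0 < i < q} (1 - ζ ^ i)` (`Polynomial.cyclotomic`, `eval_one_cyclotomic_prime`) and
`(1 - ζ ^ i) / (1 - ζ) ≡ i` is a unit. -/
theorem cyc_exists_unit {ζ : K'} (hζ : IsPrimitiveRoot ζ q) (hq : q.Prime)
    (hqB : (q : K') ∈ B'.nonunits) :
    ∃ ε : K', ε ∈ B' ∧ ε⁻¹ ∈ B' ∧ (q : K') = ε * (ζ - 1) ^ (q - 1) := by
  have : Fact q.Prime := ⟨hq⟩
  have : NeZero q := ⟨hq.ne_zero⟩
  have h1 : (q : K') = ∏ μ ∈ primitiveRoots q K', (1 - μ) := by
    have h2 := Polynomial.cyclotomic_eq_prod_X_sub_primitiveRoots hζ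
    have h3 := congrArg (Polynomial.eval 1) h2
    rw [Polynomial.eval_one_cyclotomic_prime, Polynomial.eval_prod] at h3
    simpa using h3
  have hcard : (primitiveRoots q K').card = q - 1 := by
    rw [hζ.card_primitiveRoots, Nat.totient_prime hq]
  obtain ⟨ε, e1, e2, e3⟩ := cyc_prod_aux B' (ζ - 1) (primitiveRoots q K') (fun μ => 1 - μ) (by
    intro μ hμ
    rw [mem_primitiveRoots hq.pos] at hμ
    obtain ⟨i, -, hi, rfl⟩ := hζ.isPrimitiveRoot_iff.1 hμ
    obtain ⟨c, hc, hc1, hc2⟩ := cyc_exists_quot_nat B' hζ hq hqB i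
    refine ⟨-c, neg_mem hc, ?_, ?_⟩
    · rw [inv_neg]
      exact neg_mem (cyc_unit_of_coprime B' hq hqB hi hc hc2)
    · linear_combination -hc1)
  exact ⟨ε, e1, e2, by rw [h1, e3, hcard]⟩

end Fermat.Agent.S36.Mod
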