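/-
S36, modular part: the two `BP.Half` fields of the model, from helper156's `Setup`
(sub-architect of this layer: helper154).  Node HI-5.
STUB FILE: the statements are frozen interfaces; the task owner replaces every `sorry`
(extra auxiliary lemmas are welcome, with fresh names).
Expansions of `τ₀ = j(q² τ) - j(τ)` and of the Frobenius differences.
-/
import Fermat.Agent.S36.Mod.HalfInst.Comap
import Fermat.Agent.S36.Mod.HalfInst.Cyclo
import Fermat.Agent.GAL.E.Frob

set_option autoImplicit false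

noncomputable section

namespace Fermat.Agent.S36.Mod

open ModularCurve Fermat.Agent.S24 Fermat.Agent.S18 Fermat.Agent.S18.Vert
  Fermat.Agent.S18.Descent

section Series

variable {L : Type*} [Field L] [Algebra ℚ L] (A : ValuationSubring L)

namespace ExpandAux

/-- the integral model of `j`. -/
def jZ : LaurentSeries ℤ :=
  HahnSeries.single (-1 : ℤ) 1 * HahnSeries.ofPowerSeries ℤ ℤ jNum

theorem coeff_C_mul' {R : Type*} [CommRing R] (a : R) (P : LaurentSeries R) (n : ℤ) :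
    (HahnSeries.C a * P).coeff n = a * P.coeff n := by
  rw [HahnSeries.C_apply, HahnSeries.coeff_single_mul, sub_zero]

theorem jZ_coeff_neg_one : jZ.coeff (-1) = 1 := by
  rw [jZ, HahnSeries.coeff_single_mul, one_mul, sub_self]
  have h := PowerSeries.coeff_coe jNum (0 : ℤ)
  simp only [lt_self_iff_false, if_false, Int.natAbs_zero,
    PowerSeries.coeff_zero_eq_constantCoeff, constantCoeff_jNum] at h
  exact h

theorem coeffMap_jZ : coeffMap (Int.castRingHom ℚ) jZ = jq := by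
  rw [jZ, map_mul, coeffMap_single, map_one, coeffMap_ofPowerSeries]
  rfl

variable (L) in
theorem Js_eq_coeffMap (d : ℕ) [NeZero d] :
    Js L d = coeffMap (Int.castRingHom L) (qExpand ℤ d jZ) := by
  rw [Js, ← coeffMap_jZ, ← coeffMap_qExpand, coeffEmb, coeffMap_coeffMap]
  exact coeffMap_congr (RingHom.ext_int _ _) _

omit [Algebra ℚ L] in
theorem inc_coeffMap_int (f : LaurentSeries ℤ) :
    inc A (coeffMap (Int.castRingHom A) f) = coeffMap (Int.castRingHom L) f := by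
  rw [inc, coeffMap_coeffMap]
  exact coeffMap_congr (RingHom.ext_int _ _) _

omit [Algebra ℚ L] in
theorem red_coeffMap_int (f : LaurentSeries ℤ) :
    red A (coeffMap (Int.castRingHom A) f) =
      coeffMap (Int.castRingHom (IsLocalRing.ResidueField A)) f := by
  rw [red, coeffMap_coeffMap]
  exact coeffMap_congr (RingHom.ext_int _ _) _

/-- a series all of whose coefficients are divisible by `a ≠ 0` is divisible by `a`. -/
theorem exists_C_mul_of_dvd (a : ℤ) (g : LaurentSeries ℤ) (h : ∀ n, a ∣ g.coeff n) :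
    ∃ U : LaurentSeries ℤ, g = HahnSeries.C a * U := by
  choose c hc using h
  refine ⟨⟨fun n => if g.coeff n = 0 then 0 else c n, g.isPWO_support.mono ?_⟩, ?_⟩
  · intro n hn
    simp only [Function.mem_support, ne_eq, ite_eq_left_iff, not_forall] at hn
    exact hn.1
  · ext n
    rw [coeff_C_mul']
    show g.coeff n = a * (if g.coeff n = 0 then 0 else c n)
    split_ifs with h0
    · rw [h0, mul_zero]
    · exact hc n

/-- `f(t^q) ≡ f(t)^q` modulo `q` for `f ∈ ℤ((t))`. -/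
theorem exists_qExpand_sub_pow (q : ℕ) [NeZero q] (hq : q.Prime) (f : LaurentSeries ℤ) :
    ∃ U : LaurentSeries ℤ, qExpand ℤ q f - f ^ q = HahnSeries.C (q : ℤ) * U := by
  have : Fact q.Prime := ⟨hq⟩
  apply exists_C_mul_of_dvd
  intro n
  rw [← ZMod.intCast_zmod_eq_zero_iff_dvd]
  have h1 : coeffMap (Int.castRingHom (ZMod q)) (qExpand ℤ q f - f ^ q) = 0 := by
    rw [map_sub, map_pow, Fermat.Agent.GAL.E.pow_char_eq_qExpand q, ZMod.frobenius_zmod,
      coeffMap_id, coeffMap_qExpand, sub_self]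
  have h2 := congrArg (fun x => HahnSeries.coeff x n) h1
  exact h2

end ExpandAux

open ExpandAux

/-- `j(t^q) ≡ j(t)^q` modulo `q`: the series have integral coefficients (`exists_inc_eq_Js`) and
`f(t^q) ≡ f(t)^q` modulo `q` for `f ∈ ℤ((t))`. -/
theorem exists_Js_frob (q : ℕ) [NeZero q] (hq : q.Prime) (d : ℕ) [NeZero d] :
    ∃ U : LaurentSeries A, Js L (q * d) - Js L d ^ q = inc A (HahnSeries.C (q : A) * U) := by
  obtain ⟨U, hU⟩ := exists_qExpand_sub_pow q hq (qExpand ℤ d jZ)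
  refine ⟨coeffMap (Int.castRingHom A) U, ?_⟩
  have h1 : HahnSeries.C (q : A) * coeffMap (Int.castRingHom A) U =
      coeffMap (Int.castRingHom A) (HahnSeries.C (q : ℤ) * U) := by
    rw [map_mul, HahnSeries.C_apply, HahnSeries.C_apply, coeffMap_single]
    simp
  rw [h1, inc_coeffMap_int, ← hU, map_sub, map_pow, qExpand_qExpand, ← Js_eq_coeffMap,
    ← Js_eq_coeffMap]

/-- the coefficient of `t^(-1)` in the reduction of `j(t)` is `1`. -/
theorem exists_inc_Js_one :
    ∃ P : LaurentSeries A, inc A P = Js L 1 ∧ (red A P).coeff (-1) = 1 := by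
  refine ⟨coeffMap (Int.castRingHom A) (qExpand ℤ 1 jZ), ?_, ?_⟩
  · rw [inc_coeffMap_int, ← Js_eq_coeffMap]
  · rw [red_coeffMap_int, qExpand_one_apply, coeffMap_coeff, jZ_coeff_neg_one]
    simp

/-- the reduction of `j(t^(q q)) - j(t)` is not zero (coefficient of `t^(-1)`). -/
theorem exists_inc_Js_sub (q : ℕ) [NeZero q] (hq : q.Prime) :
    ∃ P : LaurentSeries A, inc A P = Js L (1 * q * q) - Js L 1 ∧ red A P ≠ 0 := by
  refine ⟨coeffMap (Int.castRingHom A) (qExpand ℤ (1 * q * q) jZ - qExpand ℤ 1 jZ), ?_, ?_⟩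
  · rw [inc_coeffMap_int, map_sub, ← Js_eq_coeffMap, ← Js_eq_coeffMap]
  · intro h
    have h1 := congrArg (fun x => HahnSeries.coeff x (-1)) h
    simp only [red_coeffMap_int, coeffMap_coeff, HahnSeries.coeff_sub, HahnSeries.coeff_zero,
      qExpand_one_apply, jZ_coeff_neg_one] at h1
    rw [qExpand_coeff_of_not_dvd] at h1
    · simp at h1
    · intro hd
      have h2 : ((1 * q * q : ℕ) : ℤ) ∣ 1 := by simpa using hd
      have h3 : (1 * q * q : ℕ) ∣ 1 := by exact_mod_cast h2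
      have h4 : q ∣ 1 := Dvd.dvd.trans ⟨1 * q, by ring⟩ h3
      exact hq.one_lt.ne' (Nat.dvd_one.1 h4)

/-- `j(ζ t) - j(t) = (ζ - 1) U` with `U ≡ θ j`, of nonzero reduction (`cyc_exists_quot`; the
coefficient of `t^(-1)` of the reduction of `U` is `-1`). -/
theorem exists_twist_Js_sub (q : ℕ) (hq : q.Prime) (hqA : (q : L) ∈ A.nonunits) (ζ : Lˣ)
    (hζ : IsPrimitiveRoot ζ q) (hmem : (ζ : L) - 1 ∈ A) :
    ∃ U : LaurentSeries A, red A U ≠ 0 ∧
      S24.B.twist ζ (Js L 1) - Js L 1 = inc A (HahnSeries.C ⟨(ζ : L) - 1, hmem⟩ * U) := by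
  have hζ' : IsPrimitiveRoot (ζ : L) q := IsPrimitiveRoot.coe_units_iff.2 hζ
  choose c hcA hc hcn using cyc_exists_quot A hζ' hq hqA
  refine ⟨⟨fun n => ⟨c n, hcA n⟩ * ((jZ.coeff n : ℤ) : A), jZ.isPWO_support.mono ?_⟩, ?_, ?_⟩
  · intro n hn
    simp only [Function.mem_support, ne_eq] at hn ⊢
    intro h0
    apply hn
    rw [h0]
    simp
  · intro h
    have h1 := congrArg (fun x => HahnSeries.coeff x (-1)) h
    simp only [red_coeff, HahnSeries.coeff_zero, jZ_coeff_neg_one, Int.cast_one, mul_one] at h1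
    have h2 : IsLocalRing.residue A (⟨c (-1), hcA (-1)⟩ - ((-1 : ℤ) : A)) = 0 := by
      rw [IsLocalRing.residue_eq_zero_iff, ← ValuationSubring.coe_mem_nonunits_iff]
      have := hcn (-1)
      simpa using this
    rw [map_sub, h1, zero_sub, neg_eq_zero] at h2
    simp at h2
  · ext n
    rw [HahnSeries.coeff_sub, S24.B.twist_coeff, inc_coeff, coeff_C_mul', Js_eq_coeffMap,
      qExpand_one_apply, coeffMap_coeff, Units.val_zpow_eq_zpow_val]
    have h3 := hc n
    push_cast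
    simp only [eq_intCast]
    linear_combination ((jZ.coeff n : ℤ) : L) * h3

end Series

namespace Setup

variable {K K' : Type*} [Field K] [Field K'] [Algebra ℚ K] [Algebra ℚ K'] [Algebra K Kbar]
  [Algebra K' Kbar] (S : Setup K K')

theorem q_nonunit' : ((S.q : ℕ) : K') ∈ S.B'.nonunits := by
  rw [ValuationSubring.mem_nonunits_iff]
  by_contra hcon
  rw [not_lt] at hcon
  have h1 : ((S.q : ℕ) : K')⁻¹ ∈ S.B' := by
    rw [← S.B'.valuation_le_one_iff, map_inv₀]
    exact inv_le_one_of_one_le₀ hcon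
  have h2 : ((S.q : ℕ) : K)⁻¹ ∈ S.B := by
    have h3 : ((S.q : ℕ) : K)⁻¹ ∈ S.B'.comap S.ι := by
      show S.ι _ ∈ S.B'
      rw [map_inv₀, map_natCast]
      exact h1
    exact S.comap_ι ▸ h3
  apply S.unif.not_isUnit
  have h0 : ((S.q : ℕ) : K) ≠ 0 := by
    intro h
    apply S.unif.ne_zero
    apply Subtype.ext
    simpa using h
  refine isUnit_iff_exists_inv.mpr ⟨⟨_, h2⟩, Subtype.ext ?_⟩
  show (((S.q : ℕ) : S.B) : K) * ((S.q : ℕ) : K)⁻¹ = 1
  have h4 : (((S.q : ℕ) : S.B) : K) = ((S.q : ℕ) : K) := by simp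
  rw [h4, mul_inv_cancel₀ h0]

theorem e20_tau0 : S.e20.toHom S.tau0 = Js K (1 * S.q * S.q) - Js K 1 := rfl

/-- `w_{q²}` exchanges `j(τ)` and `j(q² τ)`. -/
theorem w2_JK_one :
    S.w2 (JK K (S.N0 * S.q * S.q) 1 (one_dvd _)) =
      JK K (S.N0 * S.q * S.q) (1 * S.q * S.q)
        (Nat.mul_dvd_mul (Nat.mul_dvd_mul (one_dvd _) dvd_rfl) dvd_rfl) := by
  have h1 : (1 : ℕ) * 1 ∣ S.N0 * S.q * S.q := by rw [mul_one]; exact one_dvd _
  have h2 : 1 * (S.q * S.q) ∣ S.N0 * S.q * S.q := by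
    rw [Nat.mul_assoc S.N0]
    exact Nat.mul_dvd_mul (one_dvd _) dvd_rfl
  have h := wAL_JK K (S.N0 * S.q * S.q) S.N0 (S.q * S.q) (Nat.mul_assoc _ _ _) S.coprime'
    1 1 (S.q * S.q) (one_dvd _) (one_mul _) h1 h2
  rw [JK_congr K (S.N0 * S.q * S.q) (mul_one 1) h1 (one_dvd _),
    JK_congr K (S.N0 * S.q * S.q) (Nat.mul_assoc 1 S.q S.q).symm h2
      (Nat.mul_dvd_mul (Nat.mul_dvd_mul (one_dvd _) dvd_rfl) dvd_rfl)] at h
  exact h

theorem w2_JK_qq :
    S.w2 (JK K (S.N0 * S.q * S.q) (1 * S.q * S.q)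
        (Nat.mul_dvd_mul (Nat.mul_dvd_mul (one_dvd _) dvd_rfl) dvd_rfl)) =
      JK K (S.N0 * S.q * S.q) 1 (one_dvd _) := by
  rw [← S.w2_JK_one]
  exact wAL_wAL K _ _ _ _ _ _

theorem e02_tau0 : S.e02.toHom S.tau0 = Js K 1 - Js K (1 * S.q * S.q) := by
  show ((S.w2 S.tau0 : S.F2) : LaurentSeries K) = _
  rw [tau0, map_sub, S.w2_JK_one, S.w2_JK_qq]
  rfl

theorem e11_tau0 : S.e11.toHom S.tau0 = S24.B.twist S.ζ (Js K' 1) - Js K' 1 := by
  show S.midK' (S.toK' (S.N0 * S.q * S.q) S.tau0) = _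
  rw [tau0, map_sub, map_sub, S.toK'_JK, S.toK'_JK]
  congr 1
  · exact mid_JK' K' S.N0 S.q S.hq S.hqN S.ζ S.hζ 1 (one_dvd _) _
  · exact mid_JK K' S.N0 S.q S.hq S.hqN S.ζ S.hζ 1 (one_dvd _) _

end Setup

end Fermat.Agent.S36.Mod

end
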