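/-
S36, modular part: the two `BP.Half` fields of the model, from helper156's `Setup`
(sub-architect of this layer: helper154).  Node HI-6.
STUB FILE: the statements are frozen interfaces; the task owner replaces every `sorry`
(extra auxiliary lemmas are welcome, with fresh names).
Uniformisers, `τ₀` on the three components.
-/
import Fermat.Agent.S36.Mod.HalfInst.Expand
import Fermat.Agent.S36.Mod.GaussEmb.Basic

set_option autoImplicit false

noncomputable section

namespace Fermat.Agent.S36.Mod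

open ModularCurve Fermat.Agent.S24 Fermat.Agent.S18 Fermat.Agent.S18.Vert
  Fermat.Agent.S18.Descent

/-- an element which is integral together with its inverse has valuation `1`. -/
theorem Unif_valuation_eq_one {F : Type*} [Field F] {V : ValuationSubring F} {x : F}
    (hx : x ≠ 0) (h : x ∈ V) (h' : x⁻¹ ∈ V) : V.valuation x = 1 := by
  have h1 := (V.valuation_le_one_iff x).mpr h
  have h2 := (V.valuation_le_one_iff x⁻¹).mpr h'
  have h0 : 0 < V.valuation x := zero_lt_iff.2 ((Valuation.ne_zero_iff _).2 hx)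
  rw [map_inv₀, inv_le_one₀ h0] at h2
  exact le_antisymm h1 h2

/-- an element whose expansion is an integral series of nonzero reduction is a unit. -/
theorem Unif_valuation_eq_one_of_inc {K : Type*} [Field K] {A : ValuationSubring K}
    [IsDiscreteValuationRing A] {F : Type*} [Field F] (φ : IntEmb A F) {x : F}
    {P : LaurentSeries A} (hP : red A P ≠ 0) (h : φ.toHom x = inc A P) :
    φ.val.valuation x = 1 := by
  have hx : x ≠ 0 := by
    rintro rfl
    rw [map_zero] at h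
    exact inc_ne_zero_of_red_ne_zero hP h.symm
  exact Unif_valuation_eq_one hx (φ.mem_val_of_eq_inc h)
    (φ.inv_mem_val_of_pres (Q := 1) hP (by rw [map_one, mul_one, h]))

namespace Setup

variable {K K' : Type*} [Field K] [Field K'] [Algebra ℚ K] [Algebra ℚ K'] [Algebra K Kbar]
  [Algebra K' Kbar] (S : Setup K K')

/-- `q` is a uniformiser of the Gauss valuation ring of every integral embedding over `B`. -/
theorem Unif_isUnif_val {F : Type*} [Field F] (φ : IntEmb S.B F) :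
    IsUnif φ.val ((S.q : ℕ) : F) := by
  refine φ.isUnif_val S.unif (U := 1) (by rw [map_one]; exact one_ne_zero) ?_
  rw [mul_one, inc_C, map_natCast]
  have h1 : (((S.q : ℕ) : S.B) : K) = ((S.q : ℕ) : K) := by push_cast; rfl
  rw [h1, map_natCast]

/-! `IntEmb.isUnif_val S.unif` with `U = 1`. -/

theorem isUnif_V1oo : IsUnif S.V1oo ((S.q : ℕ) : S.F1) := S.Unif_isUnif_val S.e1oo

theorem isUnif_V10 : IsUnif S.V10 ((S.q : ℕ) : S.F1) := S.Unif_isUnif_val S.e10

theorem isUnif_V20 : IsUnif S.V20 ((S.q : ℕ) : S.F2) := S.Unif_isUnif_val S.e20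

theorem isUnif_V02 : IsUnif S.V02 ((S.q : ℕ) : S.F2) := S.Unif_isUnif_val S.e02

theorem tau0_ne_zero : S.tau0 ≠ 0 := by
  obtain ⟨P, hP, hred⟩ := exists_inc_Js_sub S.B S.q S.hq
  intro h0
  have h := S.e20_tau0
  rw [h0, map_zero, ← hP] at h
  exact inc_ne_zero_of_red_ne_zero hred h.symm

/-- `e20_tau0`, `exists_inc_Js_sub`, `IntEmb.mem_val_of_eq_inc`, `IntEmb.inv_mem_val_of_pres`. -/
theorem tau0_unit_V20 : S.V20.valuation S.tau0 = 1 := by
  obtain ⟨P, hP, hred⟩ := exists_inc_Js_sub S.B S.q S.hq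
  exact Unif_valuation_eq_one_of_inc S.e20 hred (by rw [S.e20_tau0, hP])

theorem tau0_unit_V02 : S.V02.valuation S.tau0 = 1 := by
  obtain ⟨P, hP, hred⟩ := exists_inc_Js_sub S.B S.q S.hq
  refine Unif_valuation_eq_one_of_inc S.e02 (P := -P) ?_ ?_
  · rw [map_neg]
    exact neg_ne_zero.mpr hred
  · rw [S.e02_tau0, map_neg, hP, neg_sub]

theorem Unif_zeta_prim : IsPrimitiveRoot (S.ζ : K') S.q :=
  IsPrimitiveRoot.coe_units_iff.mpr S.hζ

theorem Unif_zeta_sub_one_nonunit : (S.ζ : K') - 1 ∈ S.B'.nonunits :=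
  cyc_sub_one_nonunit S.B' S.Unif_zeta_prim S.hq S.q_nonunit'

theorem Unif_zeta_sub_one_mem : (S.ζ : K') - 1 ∈ S.B' :=
  ValuationSubring.nonunits_subset S.Unif_zeta_sub_one_nonunit

theorem Unif_exists_e11_tau0 : ∃ U : LaurentSeries S.B', red S.B' U ≠ 0 ∧
    S.e11.toHom S.tau0 =
      inc S.B' (HahnSeries.C ⟨(S.ζ : K') - 1, S.Unif_zeta_sub_one_mem⟩ * U) := by
  obtain ⟨U, hU, h⟩ := exists_twist_Js_sub S.B' S.q S.hq S.q_nonunit' S.ζ S.hζ
    S.Unif_zeta_sub_one_mem
  exact ⟨U, hU, by rw [S.e11_tau0, h]⟩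

/-- `e11_tau0`, `exists_twist_Js_sub`, `cyc_sub_one_nonunit`, `IntEmb.mem_nonunits_iff`. -/
theorem tau0_nonunit_V11 : S.tau0 ∈ S.V11.nonunits := by
  obtain ⟨U, -, h⟩ := S.Unif_exists_e11_tau0
  have hnu : ¬ IsUnit (⟨(S.ζ : K') - 1, S.Unif_zeta_sub_one_mem⟩ : S.B') := by
    obtain ⟨ha, hm⟩ :=
      ValuationSubring.mem_nonunits_iff_exists_mem_maximalIdeal.mp S.Unif_zeta_sub_one_nonunit
    exact (IsLocalRing.mem_maximalIdeal _).mp hm
  have := S.e11.sub_mem_nonunits (f := S.tau0) (g := 0) hnu (U := U) (by rw [map_zero, sub_zero, h])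
  rwa [sub_zero] at this

/-- `q / τ₀^(q-1) = ε / U^(q-1)` (`cyc_exists_unit`) with `U` of nonzero reduction. -/
theorem q_div_tau0_mem_V11 : ((S.q : ℕ) : S.F2) / S.tau0 ^ (S.q - 1) ∈ S.V11 := by
  obtain ⟨U, hU, h⟩ := S.Unif_exists_e11_tau0
  obtain ⟨ε, hε, -, hq⟩ := cyc_exists_unit S.B' S.Unif_zeta_prim S.hq S.q_nonunit'
  refine (S.e11.mem_val_iff _).2 ⟨HahnSeries.C ⟨ε, hε⟩, U ^ (S.q - 1), ?_, ?_⟩
  · rw [map_pow]
    exact pow_ne_zero _ hU
  · have hτ : S.e11.toHom S.tau0 ≠ 0 := (map_ne_zero _).2 S.tau0_ne_zero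
    rw [map_mul, inc_C] at h
    have ha : algebraMap K' (LaurentSeries K') ((S.ζ : K') - 1) ≠ 0 := by
      intro h0
      apply hτ
      rw [h]
      show algebraMap K' (LaurentSeries K') ((S.ζ : K') - 1) * _ = 0
      rw [h0, zero_mul]
    have hU0 : inc S.B' U ≠ 0 := inc_ne_zero_of_red_ne_zero hU
    have hqL : ((S.q : ℕ) : LaurentSeries K') =
        algebraMap K' (LaurentSeries K') ε *
          algebraMap K' (LaurentSeries K') ((S.ζ : K') - 1) ^ (S.q - 1) := by
      rw [← map_pow, ← map_mul, ← hq, map_natCast]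
    rw [map_div₀, map_pow, map_natCast, h, map_pow, inc_C, hqL]
    show _ / (algebraMap K' (LaurentSeries K') ((S.ζ : K') - 1) * _) ^ (S.q - 1) * _ =
      algebraMap K' (LaurentSeries K') ε
    rw [mul_pow]
    field_simp

theorem V20_ne_V11 : S.V20 ≠ S.V11 := by
  intro h
  have h1 := S.tau0_nonunit_V11
  rw [← h, ValuationSubring.mem_nonunits_iff, S.tau0_unit_V20] at h1
  exact lt_irrefl _ h1

theorem V02_ne_V11 : S.V02 ≠ S.V11 := by
  intro h
  have h1 := S.tau0_nonunit_V11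
  rw [← h, ValuationSubring.mem_nonunits_iff, S.tau0_unit_V02] at h1
  exact lt_irrefl _ h1

end Setup

end Fermat.Agent.S36.Mod

end
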