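/-
S36, modular part: the two `BP.Half` fields of the model, from helper156's `Setup`
(sub-architect of this layer: helper154).  Node HI-7.
DONE (helper141): all proofs of this file are complete; the statements are frozen interfaces.
The inseparable elements.
-/
import Fermat.Agent.S36.Mod.HalfInst.Expand
import Fermat.Agent.S36.Mod.GaussEmb.Basic

set_option autoImplicit false
set_option linter.unusedSectionVars false

noncomputable section

namespace Fermat.Agent.S36.Mod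

open ModularCurve Fermat.Agent.S24 Fermat.Agent.S18 Fermat.Agent.S18.Vert
  Fermat.Agent.S18.Descent

namespace Setup

variable {K K' : Type*} [Field K] [Field K'] [Algebra ℚ K] [Algebra ℚ K'] [Algebra K Kbar]
  [Algebra K' Kbar] (S : Setup K K')

/-- `j(τ)` at level `N0 q q` -/
def J2one : S.F2 := JK K (S.N0 * S.q * S.q) 1 (one_dvd _)

/-- `j(q² τ)` at level `N0 q q` -/
def J2qq : S.F2 :=
  JK K (S.N0 * S.q * S.q) (1 * S.q * S.q)
    (Nat.mul_dvd_mul (Nat.mul_dvd_mul (one_dvd _) dvd_rfl) dvd_rfl)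

/-- `j(τ)` at level `N0 q` -/
def J1one : S.F1 := JK K (S.N0 * S.q) 1 (one_dvd _)

/-- `j(q τ)` at level `N0 q` -/
def J1q : S.F1 := JK K (S.N0 * S.q) (1 * S.q) (Nat.mul_dvd_mul (one_dvd _) dvd_rfl)

/-! ### Auxiliary: the expansions -/

theorem insep_e02_J2qq : S.e02.toHom S.J2qq = Js K 1 := by
  have h1 : 1 * (S.q * S.q) ∣ S.N0 * S.q * S.q := by
    rw [Nat.mul_assoc]; exact Nat.mul_dvd_mul (one_dvd _) dvd_rfl
  have h2 : 1 * 1 ∣ S.N0 * S.q * S.q := by rw [one_mul]; exact one_dvd _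
  have e1 : S.J2qq = JK K (S.N0 * S.q * S.q) (1 * (S.q * S.q)) h1 :=
    JK_congr K _ (Nat.mul_assoc _ _ _) _ _
  have e2 := wAL_JK K (S.N0 * S.q * S.q) S.N0 (S.q * S.q) (Nat.mul_assoc _ _ _) S.coprime'
    1 (S.q * S.q) 1 (one_dvd _) (Nat.mul_one _) h1 h2
  show ((S.w2 S.J2qq : S.F2) : LaurentSeries K) = Js K 1
  rw [e1, w2, e2, coe_JK]

theorem insep_e02_al1_J1q : S.e02.toHom (S.al1.toRingHom S.J1q) = Js K (S.q * 1) := by
  have h1 : 1 * S.q ∣ S.N0 * S.q * S.q := (Nat.mul_dvd_mul (one_dvd _) dvd_rfl).mul_right _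
  have e1 : S.al1.toRingHom S.J1q = JK K (S.N0 * S.q * S.q) (1 * S.q) h1 :=
    al_JK (S.N0 * S.q) S.q (1 * S.q) _
  have e2 := wAL_JK K (S.N0 * S.q * S.q) S.N0 (S.q * S.q) (Nat.mul_assoc _ _ _) S.coprime'
    1 S.q S.q (one_dvd _) rfl h1 h1
  show ((S.w2 (S.al1.toRingHom S.J1q) : S.F2) : LaurentSeries K) = _
  rw [e1, w2, e2, coe_JK]
  exact Js_congr K (Nat.mul_comm _ _)

theorem insep_e20_J2one : S.e20.toHom S.J2one = Js K 1 := rfl

theorem insep_e20_be1_J1one : S.e20.toHom (S.be1.toRingHom S.J1one) = Js K (S.q * 1) := by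
  have h1 : S.q * 1 ∣ S.N0 * S.q * S.q := by rw [Nat.mul_one]; exact Dvd.intro_left _ rfl
  have e1 : S.be1.toRingHom S.J1one = JK K (S.N0 * S.q * S.q) (S.q * 1) h1 :=
    be_JK (S.N0 * S.q) S.q 1 _ h1
  rw [e1]
  rfl

theorem insep_q_not_isUnit : ¬ IsUnit ((S.q : ℕ) : S.B) := S.unif.not_isUnit

/-- abstract form of the two congruences -/
theorem insep_cong {F : Type*} [Field F] (φ : IntEmb S.B F) {c y : F}
    (hc : φ.toHom c = Js K (S.q * 1)) (hy : φ.toHom y = Js K 1) :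
    φ.val.valuation (c - y ^ S.q) < 1 := by
  obtain ⟨U, hU⟩ := exists_Js_frob (L := K) S.B S.q S.hq 1
  rw [← ValuationSubring.mem_nonunits_iff]
  refine φ.sub_mem_nonunits S.insep_q_not_isUnit (U := U) ?_
  rw [map_pow, hc, hy, hU]

/-- abstract form of the two non-congruences -/
theorem insep_not_cong {F : Type*} [Field F] (φ : IntEmb S.B F) {x y : F}
    (hy : φ.toHom y = Js K 1)
    (hx : ∀ h : x ∈ φ.val, ∃ g : LaurentSeries (IsLocalRing.ResidueField S.B),
      φ.res ⟨x, h⟩ = qExpand _ S.q g) :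
    ¬ φ.val.valuation (x - y) < 1 := by
  intro hlt
  rw [← ValuationSubring.mem_nonunits_iff] at hlt
  obtain ⟨P, hP, hP1⟩ := exists_inc_Js_one (L := K) S.B
  have hyP : φ.toHom y = inc S.B P := by rw [hy, hP]
  have hymem : y ∈ φ.val := φ.mem_val_of_eq_inc hyP
  have hsub : x - y ∈ φ.val := ValuationSubring.nonunits_subset hlt
  have hxmem : x ∈ φ.val := by
    have := φ.val.add_mem _ _ hsub hymem
    rwa [sub_add_cancel] at this
  obtain ⟨g, hg⟩ := hx hxmem
  have h0 : φ.res (⟨x, hxmem⟩ - ⟨y, hymem⟩) = 0 := (φ.res_eq_zero_iff _).2 hlt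
  rw [map_sub, sub_eq_zero, hg, φ.res_of_eq_inc hyP] at h0
  have h1 := congrArg (fun s => HahnSeries.coeff s (-1)) h0
  simp only [hP1] at h1
  rw [qExpand_coeff_of_not_dvd] at h1
  · exact zero_ne_one h1
  · intro hd
    have h2 : (S.q : ℤ) ∣ 1 := by simpa using hd
    have h3 : S.q ∣ 1 := by exact_mod_cast h2
    exact S.hq.one_lt.ne' (Nat.dvd_one.mp h3)

/-! ### `α`, component `V02` : `y₀ = j(q² τ)`, `c = j(q τ)` -/

theorem J2qq_mem_V02 : S.J2qq ∈ S.V02 := by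
  obtain ⟨P, hP, -⟩ := exists_inc_Js_one (L := K) S.B
  exact S.e02.mem_val_of_eq_inc (P := P) (by rw [hP, insep_e02_J2qq])

/-- `e02 (α c - y₀^q) = j(t^q) - j(t)^q` (`wAL_JK`), `exists_Js_frob`, `IntEmb.sub_mem_nonunits`. -/
theorem al1_J1q_cong : S.V02.valuation (S.al1.toRingHom S.J1q - S.J2qq ^ S.q) < 1 :=
  S.insep_cong S.e02 S.insep_e02_al1_J1q S.insep_e02_J2qq

/-- the residue of `α y'` on `V02` is a series in `t^q` (`res_e02_al1`), the residue of `y₀` is the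
reduction of `j(t)`, whose coefficient of `t^(-1)` is `1` (`exists_inc_Js_one`,
`IntEmb.res_of_eq_inc`, `IntEmb.res_eq_zero_iff`, `qExpand_coeff_of_not_dvd`). -/
theorem al1_not_cong (y' : S.F1) : ¬ S.V02.valuation (S.al1.toRingHom y' - S.J2qq) < 1 :=
  S.insep_not_cong S.e02 S.insep_e02_J2qq (fun h => S.res_e02_al1 y' h)

/-! ### `β`, component `V20` : `y₀ = j(τ)`, `c = j(τ)` -/

theorem J2one_mem_V20 : S.J2one ∈ S.V20 := by
  obtain ⟨P, hP, -⟩ := exists_inc_Js_one (L := K) S.B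
  exact S.e20.mem_val_of_eq_inc (P := P) (by rw [hP, insep_e20_J2one])

theorem be1_J1one_cong : S.V20.valuation (S.be1.toRingHom S.J1one - S.J2one ^ S.q) < 1 :=
  S.insep_cong S.e20 S.insep_e20_be1_J1one S.insep_e20_J2one

theorem be1_not_cong (y' : S.F1) : ¬ S.V20.valuation (S.be1.toRingHom y' - S.J2one) < 1 :=
  S.insep_not_cong S.e20 S.insep_e20_J2one (fun h => S.res_e20_be1 y' h)

end Setup

end Fermat.Agent.S36.Mod

end
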