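/-
S36, modular part: the two `BP.Half` fields of the model, from helper156's `Setup`
(sub-architect of this layer: helper154).  Node HI-8.
Assembly.
-/
import Fermat.Agent.S36.Mod.HalfInst.Degree
import Fermat.Agent.S36.Mod.HalfInst.Unif
import Fermat.Agent.S36.Mod.HalfInst.Insep
import Fermat.Agent.S36.Mod.Count
import Fermat.Agent.S36.BP.Build.HalfFinal
import Fermat.Agent.S36.ModelStatement

set_option autoImplicit false
set_option linter.style.haveILetI false
set_option linter.unusedSectionVars false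

noncomputable section

namespace Fermat.Agent.S36.Mod

open ModularCurve Fermat.Agent.S24 Fermat.Agent.S18 Fermat.Agent.S18.Vert
  Fermat.Agent.S18.Descent Fermat.Agent.S36.Norm

namespace Setup

variable {K K' : Type*} [Field K] [Field K'] [Algebra ℚ K] [Algebra ℚ K'] [Algebra K Kbar]
  [Algebra K' Kbar] (S : Setup K K')

theorem charZero_F1 : CharZero S.F1 :=
  haveI : CharZero K := algebraRat.charZero K
  charZero_of_injective_algebraMap (algebraMap K S.F1).injective

theorem hi8_unif_mem_nonunits {F : Type*} [Field F] {V : ValuationSubring F}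
    {ϖ : F} (h : IsUnif V ϖ) : ϖ ∈ V.nonunits := by
  rw [ValuationSubring.mem_nonunits_iff]
  refine lt_of_le_of_ne ((V.valuation_le_one_iff _).2 h.mem) fun h1 => h.inv_notMem ?_
  rw [← V.valuation_le_one_iff, map_inv₀, h1, inv_one]

theorem hi8_nonunits_of_comap {F₁ F : Type*} [Field F₁] [Field F] (φ : F₁ →+* F)
    {V : ValuationSubring F} {U : ValuationSubring F₁} (h : V.comap φ = U) {c : F₁}
    (hc : φ c ∈ V.nonunits) : c ∈ U.nonunits := by
  subst h
  rw [ValuationSubring.mem_nonunits_iff] at hc ⊢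
  by_contra hcon
  push Not at hcon
  have hc0 : c ≠ 0 := by
    rintro rfl
    simp at hcon
  have h1 : c⁻¹ ∈ V.comap φ := by
    rw [← ValuationSubring.valuation_le_one_iff, map_inv₀]
    exact inv_le_one_of_one_le₀ hcon
  rw [ValuationSubring.mem_comap, map_inv₀, ← ValuationSubring.valuation_le_one_iff, map_inv₀] at h1
  have h2 : V.valuation (φ c) ≠ 0 := by
    rw [Ne, map_eq_zero, map_eq_zero]
    exact hc0
  have h3 : 1 ≤ V.valuation (φ c) := (inv_le_one₀ (zero_lt_iff.2 h2)).1 h1
  exact absurd hc (not_lt.2 h3)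

/-- From `Mod.count` applied to `α`, `V₀ = V1oo`, `V = ![V20, V11]`, `a = ![1, q - 1]`,
`b = ![1, 1]`, `τ = ![q, τ₀]`, `y = 1`. -/
theorem count_V11 : IsUnif S.V11 S.tau0 ∧
    (((S.q : ℕ) : S.F2) / S.tau0 ^ (S.q - 1))⁻¹ ∈ S.V11 := by
  haveI := S.charZero_F1
  letI := S.al1.toRingHom.toAlgebra
  have hdeg : Module.finrank S.F1 S.F2 = S.q := S.dg_al1
  haveI : FiniteDimensional S.F1 S.F2 :=
    Module.finite_of_finrank_pos (by rw [hdeg]; exact S.hq.pos)
  haveI : Algebra.IsSeparable S.F1 S.F2 := inferInstance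
  have hmap : ∀ x : S.F1, algebraMap S.F1 S.F2 x = S.al1.toRingHom x := fun _ => rfl
  have key := count (F₀ := S.F1) (F := S.F2) S.V1oo ((S.q : ℕ) : S.F1) S.isUnif_V1oo
    (ι := Fin 2) ![S.V20, S.V11]
    (by
      intro i j hij
      fin_cases i <;> fin_cases j
      · rfl
      · exact absurd hij S.V20_ne_V11
      · exact absurd hij.symm S.V20_ne_V11
      · rfl)
    (by
      intro i
      fin_cases i
      · exact S.V20_comap_al1
      · exact S.V11_comap_al1)
    ![1, S.q - 1] (fun _ => 1) ![((S.q : ℕ) : S.F2), S.tau0]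
    (by
      intro i
      fin_cases i
      · exact hi8_unif_mem_nonunits S.isUnif_V20
      · exact S.tau0_nonunit_V11)
    (by
      intro i
      fin_cases i
      · exact S.isUnif_V20.ne_zero
      · exact S.tau0_ne_zero)
    (by
      intro i
      fin_cases i
      · have h0 : ((S.q : ℕ) : S.F2) ≠ 0 := S.isUnif_V20.ne_zero
        simp [h0]
      · simpa using S.q_div_tau0_mem_V11)
    (fun _ _ => 1) (fun i _ => (![S.V20, S.V11] i).one_mem)
    (by
      intro i c hc hs s
      have hs' : S.al1.toRingHom (c s) ∈ (![S.V20, S.V11] i).nonunits := by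
        have : s = 0 := Subsingleton.elim _ _
        subst this
        simpa [hmap] using hs
      fin_cases i
      · exact hi8_nonunits_of_comap _ S.V20_comap_al1 hs'
      · exact hi8_nonunits_of_comap _ S.V11_comap_al1 hs')
    (by
      rw [hdeg]
      simp
      have := S.hq.pos
      omega)
  refine ⟨key.2.1 1, ?_⟩
  simpa using key.2.2.1 1

theorem isUnif_V11 : IsUnif S.V11 S.tau0 := S.count_V11.1

theorem ram_V11 : S.V11.valuation S.tau0 ^ (S.q - 1) = S.V11.valuation ((S.q : ℕ) : S.F2) := by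
  have h1 := (S.V11.valuation_le_one_iff _).2 S.q_div_tau0_mem_V11
  have h2 := (S.V11.valuation_le_one_iff _).2 S.count_V11.2
  have h0 : S.V11.valuation S.tau0 ^ (S.q - 1) ≠ 0 :=
    pow_ne_zero _ ((map_ne_zero _).2 S.tau0_ne_zero)
  rw [map_inv₀] at h2
  rw [map_div₀, map_pow] at h1 h2
  have hq0 : S.V11.valuation ((S.q : ℕ) : S.F2) ≠ 0 := (map_ne_zero _).2 S.isUnif_V20.ne_zero
  have h3 : 1 ≤ S.V11.valuation ((S.q : ℕ) : S.F2) / S.V11.valuation S.tau0 ^ (S.q - 1) :=
    (inv_le_one₀ (zero_lt_iff.2 (div_ne_zero hq0 h0))).1 h2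
  have h4 := le_antisymm h1 h3
  exact ((div_eq_one_iff_eq h0).1 h4).symm

theorem halfα : BP.Half S.q S.tau0 S.al1.toRingHom.fieldRange (embNorm S.al1.toRingHom)
    S.V20 S.V11 S.V02 := by
  haveI := S.charZero_F1
  exact BP.BuildHalf.half_of_hom S.al1.toRingHom S.hq S.dg_al1 S.isUnif_V1oo S.isUnif_V10
    S.V20_comap_al1 S.V11_comap_al1 S.V02_comap_al1 S.V20_ne_V11 S.isUnif_V20 S.isUnif_V11
    S.ram_V11 S.isUnif_V02 S.J2qq_mem_V02 S.al1_J1q_cong S.al1_not_cong

theorem halfβ : BP.Half S.q S.tau0 S.be1.toRingHom.fieldRange (embNorm S.be1.toRingHom)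
    S.V02 S.V11 S.V20 := by
  haveI := S.charZero_F1
  exact BP.BuildHalf.half_of_hom S.be1.toRingHom S.hq S.dg_be1 S.isUnif_V10 S.isUnif_V1oo
    S.V02_comap_be1 S.V11_comap_be1 S.V20_comap_be1 S.V02_ne_V11 S.isUnif_V02 S.isUnif_V11
    S.ram_V11 S.isUnif_V20 S.J2one_mem_V20 S.be1_J1one_cong S.be1_not_cong

end Setup

end Fermat.Agent.S36.Mod

end
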