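/-
S36, modular part: the block (HALF) of helper98's contract `BAD.Model.InstData`
(sub-architect of this layer: helper154): constants, integrality of the norms, the two `Half`
fields for the family `![V20, V11, V02]`.
-/
import Fermat.Agent.S36.Mod.HalfInst.Main
import Fermat.Agent.S36.BP.Build.ChartMap

set_option autoImplicit false
set_option linter.style.haveILetI false
set_option linter.unusedSectionVars false

noncomputable section

namespace Fermat.Agent.S36.Mod

open ModularCurve Fermat.Agent.S24 Fermat.Agent.S18 Fermat.Agent.S18.Vert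
  Fermat.Agent.S18.Descent Fermat.Agent.S36.Norm Fermat.Agent.S36.BP.Build

/-- **The norm of an integral element is integral** (abstract). -/
theorem embNorm_mem_chart {K₀ F₁ F : Type*} [Field K₀] [Field F₁] [Field F] [Algebra K₀ F₁]
    [Algebra K₀ F] (φ : F₁ →ₐ[K₀] F) (A₀ : Subring K₀) (z : F₁) {b : F}
    (hb : b ∈ chart A₀ (φ z)) : embNorm φ.toRingHom b ∈ chart A₀ (φ z) := by
  letI := φ.toRingHom.toAlgebra
  letI : Algebra (polyRing A₀ z) F := ((algebraMap F₁ F).comp (algebraMap (polyRing A₀ z) F₁)).toAlgebra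
  haveI : IsScalarTower (polyRing A₀ z) F₁ F := IsScalarTower.of_algebraMap_eq fun _ => rfl
  have h1 : IsIntegral (polyRing A₀ z) b := by
    rw [mem_chart_iff_isIntegral] at hb
    refine isIntegral_of_forall_exists_algebraMap (fun r => ?_) hb
    obtain ⟨y₀, hy₀, hy⟩ := (mem_polyRing_map_iff φ A₀ z _).1 r.2
    exact ⟨⟨y₀, hy₀⟩, hy⟩
  have h2 : IsIntegral (polyRing A₀ z) (Algebra.norm F₁ b) := Algebra.isIntegral_norm F₁ h1
  exact map_mem_chart φ A₀ z _ ((mem_chart_iff_isIntegral A₀ z _).2 h2)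

namespace Setup

variable {K K' : Type*} [Field K] [Field K'] [Algebra ℚ K] [Algebra ℚ K'] [Algebra K Kbar]
  [Algebra K' Kbar] (S : Setup K K')

theorem norm_al1_const (a : K) :
    embNorm S.al1.toRingHom (algebraMap K S.F2 a) = algebraMap K S.F2 a ^ S.q :=
  BP.BuildHalf.norm_const_hom S.al1 S.dg_al1 a

theorem norm_be1_const (a : K) :
    embNorm S.be1.toRingHom (algebraMap K S.F2 a) = algebraMap K S.F2 a ^ S.q :=
  BP.BuildHalf.norm_const_hom S.be1 S.dg_be1 a

theorem norm_al1_int (z : S.F1) (b : S.F2) (hb : b ∈ chart S.B.toSubring (S.al1 z)) :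
    embNorm S.al1.toRingHom b ∈ chart S.B.toSubring (S.al1 z) :=
  embNorm_mem_chart S.al1 _ z hb

theorem norm_be1_int (z : S.F1) (b : S.F2) (hb : b ∈ chart S.B.toSubring (S.be1 z)) :
    embNorm S.be1.toRingHom b ∈ chart S.B.toSubring (S.be1 z) :=
  embNorm_mem_chart S.be1 _ z hb

theorem const_mem_al1 (a : K) : algebraMap K S.F2 a ∈ S.al1.toRingHom.fieldRange :=
  ⟨algebraMap K S.F1 a, S.al1.commutes a⟩

theorem const_mem_be1 (a : K) : algebraMap K S.F2 a ∈ S.be1.toRingHom.fieldRange :=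
  ⟨algebraMap K S.F1 a, S.be1.commutes a⟩

/-- `halfα` for the family `![V20, V11, V02]`. -/
theorem halfα_fin : BP.Half S.q S.tau0 S.al1.toRingHom.fieldRange (embNorm S.al1.toRingHom)
    ((![S.V20, S.V11, S.V02] : Fin 3 → ValuationSubring S.F2) 0)
    ((![S.V20, S.V11, S.V02] : Fin 3 → ValuationSubring S.F2) 1)
    ((![S.V20, S.V11, S.V02] : Fin 3 → ValuationSubring S.F2) 2) := S.halfα

theorem halfβ_fin : BP.Half S.q S.tau0 S.be1.toRingHom.fieldRange (embNorm S.be1.toRingHom)
    ((![S.V20, S.V11, S.V02] : Fin 3 → ValuationSubring S.F2) 2)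
    ((![S.V20, S.V11, S.V02] : Fin 3 → ValuationSubring S.F2) 1)
    ((![S.V20, S.V11, S.V02] : Fin 3 → ValuationSubring S.F2) 0) := S.halfβ

end Setup

end Fermat.Agent.S36.Mod

end
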