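/-
S36, modular part (sub-architect of this layer: helper154).  Node COMPLETE2 of helper36's ruling:
the extensions of `V1oo`, `V10` along `al1` and along `be1`; `V20 ≠ V02`, `V1oo ≠ V10`; injectivity
of `![V20, V11, V02]`.
-/
import Fermat.Agent.S36.Mod.HalfInst.Fields
import Fermat.Agent.S36.BP.Build.HalfComplete

set_option autoImplicit false
set_option linter.style.haveILetI false
set_option linter.unusedSectionVars false

noncomputable section

namespace Fermat.Agent.S36.Mod

open ModularCurve Fermat.Agent.S24 Fermat.Agent.S18 Fermat.Agent.S18.Vert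
  Fermat.Agent.S18.Descent Fermat.Agent.S36.Norm

/-- abstract: two extensions with `e = 1`, `e = q - 1` in degree `q` are all the extensions. -/
theorem complete_two {F₁ F : Type*} [Field F₁] [Field F] [CharZero F₁] (φ : F₁ →+* F) {q : ℕ}
    (hq : q.Prime) (hdeg : dg φ = q) {U : ValuationSubring F₁} (hU : IsUnif U (q : F₁))
    {Va Vm : ValuationSubring F} {ϖm : F} (ha : Va.comap φ = U) (hm : Vm.comap φ = U)
    (hne : Va ≠ Vm) (hua : IsUnif Va (q : F)) (hm1 : ϖm ∈ Vm.nonunits) (hm0 : ϖm ≠ 0)
    (hdiv : (q : F) / ϖm ^ (q - 1) ∈ Vm)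
    (W : ValuationSubring F) (hW : W.comap φ = U) : W = Va ∨ W = Vm := by
  letI := φ.toAlgebra
  have hdeg' : Module.finrank F₁ F = q := hdeg
  haveI : FiniteDimensional F₁ F :=
    Module.finite_of_finrank_pos (by rw [hdeg']; exact hq.pos)
  haveI : Algebra.IsSeparable F₁ F := inferInstance
  have hmap : ∀ x : F₁, algebraMap F₁ F x = φ x := fun _ => rfl
  have key := count (F₀ := F₁) (F := F) U (q : F₁) hU
    (ι := Fin 2) ![Va, Vm]
    (by
      intro i j hij
      fin_cases i <;> fin_cases j
      · rfl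
      · exact absurd hij hne
      · exact absurd hij.symm hne
      · rfl)
    (by
      intro i
      fin_cases i
      · exact ha
      · exact hm)
    ![1, q - 1] (fun _ => 1) ![(q : F), ϖm]
    (by
      intro i
      fin_cases i
      · exact Setup.hi8_unif_mem_nonunits hua
      · exact hm1)
    (by
      intro i
      fin_cases i
      · exact hua.ne_zero
      · exact hm0)
    (by
      intro i
      fin_cases i
      · have h0 : (q : F) ≠ 0 := hua.ne_zero
        simp [h0]
      · simpa using hdiv)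
    (fun _ _ => 1) (fun i _ => (![Va, Vm] i).one_mem)
    (by
      intro i c hc hs s
      have hs' : φ (c s) ∈ (![Va, Vm] i).nonunits := by
        have : s = 0 := Subsingleton.elim _ _
        subst this
        simpa [hmap] using hs
      fin_cases i
      · exact Setup.hi8_nonunits_of_comap _ ha hs'
      · exact Setup.hi8_nonunits_of_comap _ hm hs')
    (by
      rw [hdeg']
      simp
      have := hq.pos
      omega)
  obtain ⟨i, hi⟩ := key.1 W hW
  fin_cases i
  · exact Or.inl hi
  · exact Or.inr hi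

namespace Setup

variable {K K' : Type*} [Field K] [Field K'] [Algebra ℚ K] [Algebra ℚ K'] [Algebra K Kbar]
  [Algebra K' Kbar] (S : Setup K K')

/-- the extensions of `V1oo` along `al1` -/
theorem complete_al1_oo (W : ValuationSubring S.F2) (hW : W.comap S.al1.toRingHom = S.V1oo) :
    W = S.V20 ∨ W = S.V11 :=
  haveI := S.charZero_F1
  complete_two S.al1.toRingHom S.hq S.dg_al1 S.isUnif_V1oo S.V20_comap_al1 S.V11_comap_al1
    S.V20_ne_V11 S.isUnif_V20 S.tau0_nonunit_V11 S.tau0_ne_zero S.q_div_tau0_mem_V11 W hW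

/-- the extensions of `V10` along `be1` -/
theorem complete_be1_0 (W : ValuationSubring S.F2) (hW : W.comap S.be1.toRingHom = S.V10) :
    W = S.V02 ∨ W = S.V11 :=
  haveI := S.charZero_F1
  complete_two S.be1.toRingHom S.hq S.dg_be1 S.isUnif_V10 S.V02_comap_be1 S.V11_comap_be1
    S.V02_ne_V11 S.isUnif_V02 S.tau0_nonunit_V11 S.tau0_ne_zero S.q_div_tau0_mem_V11 W hW

/-- the extension of `V10` along `al1` -/
theorem complete_al1_0 (W : ValuationSubring S.F2) (hW : W.comap S.al1.toRingHom = S.V10) :
    W = S.V02 :=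
  haveI := S.charZero_F1
  BP.BuildHalf.complete_insep_hom S.al1.toRingHom S.hq S.dg_al1 S.isUnif_V10 S.V02_comap_al1
    S.J2qq_mem_V02 S.al1_J1q_cong S.al1_not_cong W hW

/-- the extension of `V1oo` along `be1` -/
theorem complete_be1_oo (W : ValuationSubring S.F2) (hW : W.comap S.be1.toRingHom = S.V1oo) :
    W = S.V20 :=
  haveI := S.charZero_F1
  BP.BuildHalf.complete_insep_hom S.be1.toRingHom S.hq S.dg_be1 S.isUnif_V1oo S.V20_comap_be1
    S.J2one_mem_V20 S.be1_J1one_cong S.be1_not_cong W hW

theorem V20_ne_V02 : S.V20 ≠ S.V02 := by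
  intro h
  obtain ⟨y', ⟨y'', rfl⟩, hy'⟩ := S.halfα.dense_a S.J2qq (h ▸ S.J2qq_mem_V02)
  rw [h] at hy'
  exact S.al1_not_cong y'' hy'

theorem V1oo_ne_V10 : S.V1oo ≠ S.V10 := by
  intro h
  rcases S.complete_al1_oo S.V02 (S.V02_comap_al1.trans h.symm) with h' | h'
  · exact S.V20_ne_V02 h'.symm
  · exact S.V02_ne_V11 h'

theorem injective_VV :
    Function.Injective (![S.V20, S.V11, S.V02] : Fin 3 → ValuationSubring S.F2) := by
  intro i j hij
  fin_cases i <;> fin_cases j <;> first | rfl | exfalso
  · exact S.V20_ne_V11 hij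
  · exact S.V20_ne_V02 hij
  · exact S.V20_ne_V11 hij.symm
  · exact S.V02_ne_V11 hij.symm
  · exact S.V20_ne_V02 hij.symm
  · exact S.V02_ne_V11 hij

end Setup

end Fermat.Agent.S36.Mod

end
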